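import Fermat.Agent.ModLift.Tangent.LevelInterface

/-!
# From equations at a level to local classes: interface

A tangent vector killing the equations of a pattern gives a cochain in the local space of that
pattern.
-/

set_option autoImplicit false

noncomputable section

open IsLocalRing

namespace FLTAgent.ModLift

open FLTAgent.TWPrimes FLTAgent.PoitouTate

local notation "LL" => AlgebraicClosure ℚ
local notation "GG" => (AlgebraicClosure ℚ ≃ₐ[ℚ] AlgebraicClosure ℚ)
local notation "VS" => ValuationSubring (AlgebraicClosure ℚ)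
local notation "Dec" => ValuationSubring.decompositionSubgroup ℚ
local notation "M2" => Matrix (Fin 2) (Fin 2)

variable {O : Type} [CommRing O] [IsDomain O] [IsDiscreteValuationRing O]
  {p : ℕ} [Fact p.Prime] [Algebra (ZMod p) (ResidueField O)]
  {D : Datum p (ResidueField O)} {S : Finset Nat.Primes}

/-- The cochain on a decomposition group is that of the tangent vector. -/
def LevelRep.IsCochain (L : LevelRep D S) (V : VS) (d : L.R → ResidueField O)
    (z : ↥(Dec V) → W (ResidueField O)) : Prop :=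
  ∀ σ : ↥(Dec V), (z σ).1 = L.dCoch d (σ : GG)

/-- Special classes away from `p`. -/
def TargetSpecialClass : Prop :=
  ∀ (O : Type) [CommRing O] [IsDomain O] [IsDiscreteValuationRing O] [Finite (ResidueField O)]
    (p : ℕ) [Fact p.Prime] [Algebra (ZMod p) (ResidueField O)], (p : O) ∈ maximalIdeal O →
    ∀ (D : Datum p (ResidueField O)) (S : Finset Nat.Primes) (L : LevelRep D S)
      (q : Nat.Primes) (V : VS), (q : ℕ) ≠ p → V.LiesOverPrime (q : ℕ) →
    (∀ σ ∈ V.inertiaSubgroupIn ℚ, D.rb σ = 1) →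
    ∀ φ : ↥(Dec V), V.IsFrobeniusAt (φ : GG) (q : ℕ) →
    (∀ a : ResidueField O, (D.rb (φ : GG) : M2 (ResidueField O)) ≠ a • 1) →
    ∀ (ε : O) (v₀ : Fin 2 → ResidueField O), ε ^ 2 = 1 → v₀ ≠ 0 →
      Matrix.mulVec (D.rb (φ : GG) : M2 (ResidueField O)) v₀ =
        (residue O ε * (q : ℕ)) • v₀ →
      Matrix.trace (D.rb (φ : GG) : M2 (ResidueField O)) =
        residue O ε * (((q : ℕ) : ResidueField O) + 1) →
      ∃ x : ↥(Dec V) → ResidueField O,
        (∀ σ : ↥(Dec V),
          Matrix.mulVec (D.rb (σ : GG) : M2 (ResidueField O)) v₀ = x σ • v₀) ∧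
        ∀ d ∈ tanSp L.red, d (Matrix.trace (L.ρ (φ : GG) : M2 L.R)) = 0 →
          (∀ σ ∈ V.inertiaSubgroupIn ℚ, ∀ i j,
            d ((((L.ρ (φ : GG) : M2 L.R) - algebraMap O L.R (ε * (q : ℕ)) • 1) *
              ((L.ρ σ : M2 L.R) - 1)) i j) = 0 ∧
            d ((((L.ρ σ : M2 L.R) - 1) *
              ((L.ρ (φ : GG) : M2 L.R) - algebraMap O L.R ε • 1)) i j) = 0) →
          ∀ z, L.IsCochain V d z → LineClass D V v₀ x z

/-- Ordinary and strictly ordinary classes at `p`. -/
def TargetOrdinaryClass : Prop :=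
  ∀ (O : Type) [CommRing O] [IsDomain O] [IsDiscreteValuationRing O] [Finite (ResidueField O)]
    (p : ℕ) [Fact p.Prime] [Algebra (ZMod p) (ResidueField O)], (p : O) ∈ maximalIdeal O →
    ∀ (D : Datum p (ResidueField O)) (S : Finset Nat.Primes) (L : LevelRep D S) (V : VS),
      V.LiesOverPrime p →
    (∀ σ ∈ V.inertiaSubgroupIn ℚ, ∀ τ ∈ V.inertiaSubgroupIn ℚ,
      ((L.ρ σ : M2 L.R) - Matrix.det (L.ρ σ : M2 L.R) • 1) * ((L.ρ τ : M2 L.R) - 1) = 0) →
    ∀ (v₀ : Fin 2 → ResidueField O) (x : ↥(Dec V) → ResidueField O), v₀ ≠ 0 →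
      (∀ σ : ↥(Dec V),
        Matrix.mulVec (D.rb (σ : GG) : M2 (ResidueField O)) v₀ = x σ • v₀) →
      (∀ σ : ↥(Dec V), (σ : GG) ∈ V.inertiaSubgroupIn ℚ →
        x σ = algebraMap (ZMod p) (ResidueField O) (om p (σ : GG))) →
      ∀ d ∈ tanSp L.red, ∀ z, L.IsCochain V d z →
        OrdClass D V v₀ x z ∧
        ∀ (φ : ↥(Dec V)) (ε : O), V.IsFrobeniusAt (φ : GG) p →
          (∀ σ ∈ V.inertiaSubgroupIn ℚ, ∀ i j,
            d ((((L.ρ σ : M2 L.R) - Matrix.det (L.ρ σ : M2 L.R) • 1) *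
              ((L.ρ (φ : GG) : M2 L.R) - algebraMap O L.R ε • 1)) i j) = 0) →
          LineClass D V v₀ x z

/-- Flat classes: the level is seen on flat modules, faithfully up to a fixed power of `p`. -/
def TargetFlatClass : Prop :=
  ∀ (O : Type) [CommRing O] [IsDomain O] [IsDiscreteValuationRing O] [Finite (ResidueField O)]
    (p : ℕ) [Fact p.Prime] [Algebra (ZMod p) (ResidueField O)], (p : O) ∈ maximalIdeal O →
    ∀ (D : Datum p (ResidueField O)) (S : Finset Nat.Primes) (L : LevelRep D S) (V : VS),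
      V.LiesOverPrime p →
    (∃ s : ℕ, ∀ n : ℕ, ∃ (M : Type) (_ : AddCommGroup M) (_ : Module L.R M) (_ : Finite M)
      (actM : GG →* Module.End L.R M),
      (∀ m : M, p ^ n • m = 0) ∧
      (∀ (σ : GG) (m : M), actM σ (actM σ m) + Matrix.det (L.ρ σ : M2 L.R) • m =
        Matrix.trace (L.ρ σ : M2 L.R) • actM σ m) ∧
      (∀ t : L.R, (∀ m : M, t • m = 0) → t ∈ Ideal.span {(p : L.R) ^ (n - s)}) ∧
      FlatLocal.FlatI V fun σ : FlatLocal.Dec V => actM (σ : GG)) →
    ∀ d ∈ tanSp L.red, ∀ z, L.IsCochain V d z → FlatLocal.FlatI V (actC D V z)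

end FLTAgent.ModLift
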