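import Fermat.Agent.ModLift.Tangent.LevelInterface
import Fermat.Agent.TWPrimes.Glue.Cocycle
import Fermat.Agent.TWPrimes.Main

/-!
# The count of tangent vectors of the rings of the levels
-/

set_option autoImplicit false
set_option linter.style.haveILetI false
set_option linter.unusedSectionVars false

noncomputable section

open IsLocalRing

namespace FLTAgent.ModLift.LevelTangent

open FLTAgent.TWPrimes FLTAgent.PoitouTate FLTAgent.TWPrimes.Glue
open FLTAgent.Lowering.P1 (LevC)

local notation "LL" => AlgebraicClosure ℚ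
local notation "GG" => (AlgebraicClosure ℚ ≃ₐ[ℚ] AlgebraicClosure ℚ)
local notation "VS" => ValuationSubring (AlgebraicClosure ℚ)
local notation "Dec" => ValuationSubring.decompositionSubgroup ℚ
local notation "M2" => Matrix (Fin 2) (Fin 2)
local notation "idG" => MonoidHom.id (AlgebraicClosure ℚ ≃ₐ[ℚ] AlgebraicClosure ℚ)

variable {O : Type} [CommRing O] [IsDomain O] [IsDiscreteValuationRing O]
  {p : ℕ} [Fact p.Prime] [Algebra (ZMod p) (ResidueField O)]
  {D : Datum p (ResidueField O)} {S : Finset Nat.Primes} (L : LevelRep D S)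
  {d : L.R → ResidueField O}

theorem d_eq_zero_of_span (hd : d ∈ tanSp L.red) {x : L.R}
    (hx : x ∈ Ideal.span {(p : L.R) ^ 1}) : d x = 0 :=
  (red_d_of_mem_span (p := p) hd (x := x) (a := 0) (by simpa using hx)).2

theorem trace_dCoch (hd : d ∈ tanSp L.red) (σ : GG) : Matrix.trace (L.dCoch d σ) = 0 := by
  obtain ⟨c, hc⟩ := DetCyclo.exists_cycloExponent p 1 σ
  have hD : d (Matrix.det (L.ρ σ : M2 L.R)) = 0 :=
    (red_d_of_mem_span (p := p) hd (by simpa using L.det_cyclotomic 1 σ c hc)).2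
  set Rm : M2 (ResidueField O) := (D.rb σ : M2 (ResidueField O))
  set Ri : M2 (ResidueField O) :=
    (((D.rb σ)⁻¹ : GL (Fin 2) (ResidueField O)) : M2 (ResidueField O))
  have h1 : Rm * Ri = 1 := by rw [← Units.val_mul, mul_inv_cancel, Units.val_one]
  have hadj : Rm.adjugate = Rm.det • Ri := by
    rw [← mul_one Rm.adjugate, ← h1, ← mul_assoc, Matrix.adjugate_mul, smul_mul_assoc, one_mul]
  have hne : Rm.det ≠ 0 := by
    intro h0
    have := congrArg Matrix.det h1
    rw [Matrix.det_mul, h0, zero_mul, Matrix.det_one] at this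
    exact zero_ne_one this
  rw [d_det hd, L.red_rho] at hD
  change ((L.ρ σ : M2 L.R).map d * Rm.adjugate).trace = 0 at hD
  rw [hadj, mul_smul_comm, Matrix.trace_smul, smul_eq_mul, mul_eq_zero] at hD
  exact hD.resolve_left hne

/-- The cocycle map. -/
def cV : ↥(tanSp L.red) →ₗ[ResidueField O] (GG → W (ResidueField O)) where
  toFun d σ := ⟨L.dCoch d.1 σ, LinearMap.mem_ker.2 (trace_dCoch L d.2 σ)⟩
  map_add' d d' := funext fun σ => Subtype.ext <| by
    show L.dCoch (d.1 + d'.1) σ = L.dCoch d.1 σ + L.dCoch d'.1 σ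
    rw [LevelRep.dCoch, LevelRep.dCoch, LevelRep.dCoch, ← add_mul]
    rfl
  map_smul' a d := funext fun σ => Subtype.ext <| by
    show L.dCoch (a • d.1) σ = a • L.dCoch d.1 σ
    rw [LevelRep.dCoch, LevelRep.dCoch, ← smul_mul_assoc]
    rfl

theorem cV_val (d : ↥(tanSp L.red)) (σ : GG) : (cV L d σ).1 = L.dCoch d.1 σ := rfl

theorem dCoch_mul_rb (d : L.R → ResidueField O) (σ : GG) :
    L.dCoch d σ * (D.rb σ : M2 (ResidueField O)) = (L.ρ σ : M2 L.R).map d := by
  rw [LevelRep.dCoch, mul_assoc, ← Units.val_mul, inv_mul_cancel, Units.val_one, mul_one]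

theorem cV_mul (d : ↥(tanSp L.red)) (σ τ : GG) :
    cV L d (σ * τ) = cV L d σ + ad D 0 σ (cV L d τ) := by
  refine Subtype.ext ?_
  show L.dCoch d.1 (σ * τ) = L.dCoch d.1 σ + adM D 0 σ (L.dCoch d.1 τ)
  have h1 : (D.rb τ : M2 (ResidueField O)) *
      (((D.rb τ)⁻¹ : GL (Fin 2) (ResidueField O)) : M2 (ResidueField O)) = 1 := by
    rw [← Units.val_mul, mul_inv_cancel, Units.val_one]
  rw [adM_zero, LevelRep.dCoch, LevelRep.dCoch, LevelRep.dCoch, map_mul, Units.val_mul,
    d_matrix_mul d.2, L.red_rho, L.red_rho, map_mul,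
    mul_inv_rev, Units.val_mul, add_mul, add_comm]
  congr 1
  · rw [mul_assoc, ← mul_assoc (D.rb τ : M2 (ResidueField O)), h1, one_mul]
  · simp only [mul_assoc]

theorem cV_eq_zero (d : ↥(tanSp L.red)) {σ : GG}
    (h : ∀ i j, d.1 ((L.ρ σ : M2 L.R) i j) = 0) : cV L d σ = 0 := by
  refine Subtype.ext ?_
  have h0 : (L.ρ σ : M2 L.R).map d.1 = 0 := Matrix.ext fun i j => by simpa using h i j
  rw [cV_val, LevelRep.dCoch, h0, zero_mul]
  rfl

theorem cV_mem_Z1 (d : ↥(tanSp L.red)) : cV L d ∈ Z1 (ad D 0) idG := by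
  refine ⟨?_, fun g h => cV_mul L d g h⟩
  obtain ⟨F, hF, h⟩ := L.continuous 1
  refine ⟨F, hF, fun g s hs => ?_⟩
  have hs' : ∀ x ∈ F, s x = x := (IntermediateField.mem_fixingSubgroup_iff F s).1 hs
  have hz : cV L d s = 0 := cV_eq_zero L d fun i j => by
    have h2 := d_eq_zero_of_span L d.2 (h s hs' i j)
    rw [d_sub d.2, sub_eq_zero] at h2
    rw [h2, Matrix.one_apply]
    split <;> simp [d_one d.2, d_zero d.2]
  show cV L d (g * s) = _
  rw [cV_mul, hz, map_zero, add_zero]

theorem cV_mem_Z1S (d : ↥(tanSp L.red)) : cV L d ∈ Z1S (ad D 0) idG S :=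
  mem_Z1S_of_inertia (smooth_ad D 0) (cV_mem_Z1 L d) fun q hq V hV σ hσ => by
    have h := L.unramified q hq V hV σ hσ
    refine ⟨LinearMap.ext fun A => Subtype.ext ?_, cV_eq_zero L d fun i j => ?_⟩
    · show adM D 0 σ A.1 = A.1
      have hrb : D.rb σ = 1 := Units.ext (by
        rw [← L.red_rho, h, Units.val_one, Units.val_one]
        exact Matrix.map_one _ (map_zero L.red) (map_one L.red))
      rw [adM_zero, hrb]
      simp
    · rw [h, Units.val_one, Matrix.one_apply]
      split <;> simp [d_one d.2, d_zero d.2]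

theorem d0_mem (A : W (ResidueField O)) {T : Finset Nat.Primes} (hT : D.bad ⊆ T) :
    d0 (ad D 0) idG A ∈ Z1S (ad D 0) idG T :=
  mem_Z1S_of_inertia (smooth_ad D 0) (B1_le_Z1 (smooth_ad D 0) ⟨A, rfl⟩) fun q hq V hV σ hσ => by
    have h := ad_of_inertia D 0 (fun h' => hq (hT h')) hV hσ
    refine ⟨h, ?_⟩
    rw [d0_apply, MonoidHom.id_apply, h, LinearMap.id_apply, sub_self]

theorem eq_zero_of_cob (d : ↥(tanSp L.red)) (h : cV L d ∈ B1 (ad D 0) idG) : d = 0 := by
  obtain ⟨m, hm⟩ := h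
  have htr : ∀ σ, d.1 (Matrix.trace (L.ρ σ : M2 L.R)) = 0 := fun σ => by
    have h1 := congrArg Subtype.val (congrFun hm σ)
    rw [d0_apply, MonoidHom.id_apply, Submodule.coe_sub, cV_val] at h1
    change adM D 0 σ m.1 - m.1 = L.dCoch d.1 σ at h1
    have h2 : Matrix.trace ((L.ρ σ : M2 L.R).map d.1) = 0 := by
      rw [← dCoch_mul_rb, ← h1, adM_zero, sub_mul, mul_assoc, ← Units.val_mul,
        inv_mul_cancel, Units.val_one, mul_one, Matrix.trace_sub, Matrix.trace_mul_comm, sub_self]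
    rw [Matrix.trace_fin_two] at h2 ⊢
    rw [d.2.1]
    simpa using h2
  refine Subtype.ext (funext fun x => ?_)
  have hx : x ∈ Algebra.adjoin O (Set.range fun σ => Matrix.trace (L.ρ σ : M2 L.R)) := by
    rw [L.generated]; exact Algebra.mem_top
  show d.1 x = 0
  induction hx using Algebra.adjoin_induction with
  | mem y hy =>
    obtain ⟨σ, rfl⟩ := hy
    exact htr σ
  | algebraMap r => exact d.2.2.2 r
  | add a b _ _ ha hb => rw [d.2.1, ha, hb, add_zero]
  | mul a b _ _ ha hb => rw [d.2.2.1, ha, hb, mul_zero, mul_zero, add_zero]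

end FLTAgent.ModLift.LevelTangent

namespace FLTAgent.ModLift

open FLTAgent.TWPrimes FLTAgent.PoitouTate FLTAgent.TWPrimes.Glue FLTAgent.ModLift.LevelTangent

local notation "GG" => (AlgebraicClosure ℚ ≃ₐ[ℚ] AlgebraicClosure ℚ)
local notation "VS" => ValuationSubring (AlgebraicClosure ℚ)
local notation "Dec" => ValuationSubring.decompositionSubgroup ℚ
local notation "idG" => MonoidHom.id (AlgebraicClosure ℚ ≃ₐ[ℚ] AlgebraicClosure ℚ)

/-- The tangent vectors of the levels are bounded by the local spaces. -/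
theorem targetLevelTangent : TargetLevelTangent := by
  intro O _ _ _ _ p _ _ _hp D S hS b
  classical
  obtain ⟨r, hr2, hr⟩ :=
    twBound_ge targetEuler_all targetCyc targetPrimes b p (ResidueField O) D S hS
  refine ⟨r, hr2, fun n avoid => ?_⟩
  obtain ⟨Q, hcard, hQ, hbound⟩ := hr n avoid
  refine ⟨Q, hcard, hQ, fun L V hV Zloc hloc E hE hres => ?_⟩
  let Φ : (↥E × W (ResidueField O)) →ₗ[ZMod p] (GG → W (ResidueField O)) :=
    (((cV L).comp (Submodule.inclusion hE)).restrictScalars (ZMod p)).coprod (d0 (ad D 0) idG)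
  have hΦ : ∀ d A, Φ (d, A) = cV L (Submodule.inclusion hE d) + d0 (ad D 0) idG A :=
    fun d A => rfl
  have hinj : Function.Injective Φ := by
    rw [← LinearMap.ker_eq_bot, LinearMap.ker_eq_bot']
    rintro ⟨d, A⟩ h
    rw [hΦ] at h
    have hd : Submodule.inclusion hE d = 0 := eq_zero_of_cob L _ ⟨-A, by
      rw [map_neg]; exact (eq_neg_of_add_eq_zero_left h).symm⟩
    have hd' : d = 0 := (Submodule.inclusion_injective hE) (by rw [hd, map_zero])
    subst hd'
    rw [map_zero, map_zero, zero_add] at h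
    have hA : A ∈ inv (ad D 0) ⊤ := mem_inv.2 fun g _ => by
      have := congrFun h g
      rwa [d0_apply, MonoidHom.id_apply, Pi.zero_apply, sub_eq_zero] at this
    rw [inv_ad_top, Submodule.mem_bot] at hA
    rw [hA]
    rfl
  obtain ⟨hfin, hle⟩ := hbound V hV Zloc hloc (LinearMap.range Φ)
    (by
      rintro _ ⟨⟨d, A⟩, rfl⟩
      exact add_mem (cV_mem_Z1S L _) (d0_mem A (hS.trans Finset.subset_union_left)))
    (by
      rintro _ ⟨⟨d, A⟩, rfl⟩ q hq
      rw [hΦ, map_add]
      refine add_mem ?_ ((hloc q hq).2.1 ⟨A, rfl⟩)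
      obtain ⟨z, hz, hval⟩ := hres d.1 d.2 q hq
      convert hz using 1
      exact funext fun σ => Subtype.ext (hval σ).symm)
  haveI := hfin
  haveI : FiniteDimensional (ZMod p) (↥E × W (ResidueField O)) :=
    Module.Finite.equiv (LinearEquiv.ofInjective Φ hinj).symm
  haveI : Module.Finite (ZMod p) ↥E :=
    Module.Finite.of_surjective (LinearMap.fst (ZMod p) ↥E (W (ResidueField O)))
      LinearMap.fst_surjective
  haveI : FiniteDimensional (ResidueField O) ↥E :=
    Module.Finite.of_restrictScalars_finite (ZMod p) _ _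
  refine ⟨inferInstance, ?_⟩
  rw [LinearMap.finrank_range_of_inj hinj, Module.finrank_prod, finrank_adW,
    ← Module.finrank_mul_finrank (ZMod p) (ResidueField O) ↥E] at hle
  push_cast at hle ⊢
  linarith

end FLTAgent.ModLift
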