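import Fermat.Agent.TWPrimes.Local.Flat

/-!
# The upper corner of ordinary lifts

If a lift changes the diagonal by an unramified nonzero character then the residual extension is a
unit class; a unit class of cyclotomic weight is a multiple of the class of `1 + p`; the corner of
a flat lift with stable line is a unit class.
-/

set_option autoImplicit false
set_option linter.style.haveILetI false
set_option linter.unusedSectionVars false

noncomputable section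

open scoped Pointwise Matrix
open IsLocalRing

namespace FLTAgent.ModLift.Corner

open FLTAgent.TWPrimes.Local
open FLTAgent.FlatLocal (Dec LevC IsIne FlatI omega TameData kp exists_kp_eq res)

local notation "QQb" => AlgebraicClosure ℚ
local notation "GG" => (AlgebraicClosure ℚ ≃ₐ[ℚ] AlgebraicClosure ℚ)
local notation "M2" => Matrix (Fin 2) (Fin 2)

variable {P : ValuationSubring (AlgebraicClosure ℚ)} {p : ℕ} [Fact p.Prime] {k : Type} [Field k]
  [Algebra (ZMod p) k]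

/-- The residual extension class of an upper triangular representation. -/
def eta (r : Dec P →* M2 k) (σ : Dec P) : k := r σ 0 1 * r σ⁻¹ 1 1

section Formulas

variable {r : Dec P →* M2 k} (hlow : ∀ σ, r σ 1 0 = 0)

include hlow

theorem eta_mul (σ τ : Dec P) :
    eta r (σ * τ) = eta r σ + r σ 0 0 * r σ⁻¹ 1 1 * eta r τ := by
  have h := r11_inv hlow τ
  simp only [eta, mul_inv_rev]
  rw [r11_mul hlow, map_mul, Matrix.mul_apply, Fin.sum_univ_two]
  linear_combination r σ 0 1 * r σ⁻¹ 1 1 * h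

theorem eta_mem (hlev : LevC P r) {u : Dec P → k} (hu : ∀ σ, r σ 0 0 * r σ⁻¹ 1 1 = u σ) :
    eta r ∈ twSpace p u := by
  refine ⟨?_, fun σ τ => by rw [eta_mul hlow, hu]⟩
  have e : eta r = (fun A : M2 k => A 0 1 * (A 1 1)⁻¹) ∘ r := funext fun σ => by
    show _ = r σ 0 1 * (r σ 1 1)⁻¹
    rw [eta, eq_inv_of_mul_eq_one_right (r11_inv hlow σ)]
  rw [e]
  exact hlev.comp fun A : M2 k => A 0 1 * (A 1 1)⁻¹

theorem tri01' (σ : Dec P) {A : M2 k} (hA : A 1 0 = 0) (ht : A.trace = 0) :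
    (r σ * A * r σ⁻¹) 0 1 = r σ 0 0 * r σ⁻¹ 1 1 * A 0 1 - 2 * eta r σ * A 0 0 := by
  have h1 : A 1 1 = -A 0 0 := by
    rw [Matrix.trace_fin_two] at ht
    exact eq_neg_of_add_eq_zero_right ht
  have h2 : r σ 0 0 * r σ⁻¹ 0 1 + r σ 0 1 * r σ⁻¹ 1 1 = 0 := by
    have h := congrFun (congrFun (r_mul_inv r σ) 0) 1
    simpa [Matrix.mul_apply, Fin.sum_univ_two] using h
  simp only [eta, Matrix.mul_apply, Fin.sum_univ_two, hA, h1]
  linear_combination A 0 0 * h2

theorem corner_mul' {c : Dec P → M2 k} (hc : c ∈ cocM r p) (hl : ∀ σ, c σ 1 0 = 0) (σ τ : Dec P) :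
    c (σ * τ) 0 1 = c σ 0 1 + r σ 0 0 * r σ⁻¹ 1 1 * c τ 0 1 - 2 * eta r σ * c τ 0 0 := by
  rw [hc.2.2, Matrix.add_apply, tri01' hlow σ (hl τ) (hc.2.1 τ)]
  ring

end Formulas

section Unit

variable (t : TameData P p) {ζ : QQb} (hP : P.LiesOverPrime p) (hζ : IsPrimitiveRoot ζ p)

include hP hζ

/-- A class with a generator whose power is a unit is a unit class. -/
theorem lev_of_val_one {ν : Dec P → ZMod p} (hν : t.IsHomG ν) {γ : QQb} (hγ : t.Gen ζ ν γ)
    (hv : P.valuation (γ ^ p) = 1) : t.Lev ζ ν 1 := by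
  rcases t.lev_one_or hP hζ hν with ⟨β, j, hβ, hj, hd⟩ | h
  · refine absurd ?_ hd
    obtain ⟨i, hi⟩ := t.exists_zpow hP (div_ne_zero hβ.1 hγ.1) fun σ hσ =>
      hγ.ratio_fixed t hP hζ hβ hσ
    refine ⟨i, t.zpow_inj hP ?_⟩
    rw [← hj, mul_comm (p : ℤ), zpow_mul, zpow_natCast, ← hi, ← map_pow, div_pow, map_div₀, hv,
      div_one]
  · exact h

variable {r : Dec P →* M2 k} (hlow : ∀ σ, r σ 1 0 = 0) (hlev : LevC P r) {u : Dec P → k}
  (hu : IsTwist p ζ u) (hru : ∀ σ, r σ 0 0 * r σ⁻¹ 1 1 = u σ)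
  (huω : ∀ σ, u σ = algebraMap (ZMod p) k (omega ζ σ))

include hlow hlev hu hru huω

/-- A lift changing the diagonal by an unramified nonzero character: the extension is a unit
class. -/
theorem eta_lev (h2 : (2 : k) ≠ 0) {c : Dec P → M2 k} (hc : c ∈ cocM r p)
    (hl : ∀ σ, c σ 1 0 = 0) (hd : ∀ σ, IsIne P σ → c σ 0 0 = 0) {φ : Dec P} (hne : c φ 0 0 ≠ 0)
    (l : k →ₗ[ZMod p] ZMod p) : t.Lev ζ (fun σ => l (eta r σ)) 1 := by
  set ψ := c φ 0 0 with hψ
  have hη := eta_mem (p := p) hlow hlev hru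
  set l' : k →ₗ[ZMod p] ZMod p := l ∘ₗ LinearMap.mulLeft (ZMod p) (2 * ψ)⁻¹ with hl'
  set μ : Dec P → ZMod p := fun σ => l' (c σ 0 1) with hμ
  have hG1 : ∀ σ ∈ t.G, u σ = 1 := fun σ hσ => u_G t hP hζ hu hσ
  have hμhom : t.IsHomG μ := ⟨hc.1.comp fun A : M2 k => l' (A 0 1), fun σ hσ τ hτ => by
    simp only [hμ]
    rw [corner_mul' hlow hc hl, hru, hG1 σ hσ, hd τ hτ.1, mul_zero, sub_zero, one_mul, map_add]⟩
  obtain ⟨β, hβ⟩ := t.exists_gen hP hζ hμhom
  have hkey : ∀ σ ∈ t.G, μ σ = l (eta r σ) +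
      Mazur.expChar p ζ (φ : GG) * μ (φ⁻¹ * σ * φ) := by
    intro σ hσ
    set σ₁ := φ⁻¹ * σ * φ with hσ₁
    have hσ₁G : σ₁ ∈ t.G := t.G_conj_inv hP hσ φ
    have e1 := corner_mul' hlow hc hl φ σ₁
    rw [hd σ₁ hσ₁G.1, mul_zero, sub_zero, hru, show φ * σ₁ = σ * φ by rw [hσ₁]; group,
      corner_mul' hlow hc hl, hru, hG1 σ hσ, one_mul, ← hψ, huω] at e1
    have e2 : c σ 0 1 = 2 * ψ * eta r σ + algebraMap (ZMod p) k (omega ζ φ) * c σ₁ 0 1 := by
      linear_combination e1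
    have h20 : (2 * ψ : k) ≠ 0 := mul_ne_zero h2 hne
    simp only [hμ]
    rw [e2, map_add, ← Algebra.smul_def, map_smul, smul_eq_mul]
    congr 1
    simp only [hl', LinearMap.comp_apply, LinearMap.mulLeft_apply]
    rw [inv_mul_cancel_left₀ h20]
  have hφβ := hβ.conj t hP hζ φ
  have hγ : t.Gen ζ (fun σ => l (eta r σ)) (β / (φ : GG) β) := by
    refine ⟨div_ne_zero hβ.1 hφβ.1, fun σ hσ => ?_⟩
    have hz : ζ ^ (Mazur.expChar p ζ (φ : GG) * μ (φ⁻¹ * σ * φ)).val ≠ 0 :=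
      pow_ne_zero _ (hζ.ne_zero (Fact.out : p.Prime).ne_zero)
    rw [map_div₀, hβ.2 σ hσ, hφβ.2 σ hσ, hkey σ hσ, Mazur.zpowZMod_add hζ]
    field_simp
  refine lev_of_val_one t hP hζ ⟨hη.1.comp l, fun σ hσ τ _ => ?_⟩ hγ ?_
  · rw [hη.2, hG1 σ hσ, one_mul, map_add]
  · rw [div_pow, map_div₀, ← map_pow (φ : GG), FlatLocal.val_map, div_self]
    exact (Valuation.ne_zero_iff _).2 (pow_ne_zero _ hβ.1)

variable [Finite k]

/-- A unit class kills the inertia elements fixing the roots of `1 + p`. -/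
theorem eta_eq_zero (hp3 : 3 ≤ p) (he : t.e = p - 1)
    (hunit : ∀ l : k →ₗ[ZMod p] ZMod p, t.Lev ζ (fun σ => l (eta r σ)) 1) {σ : Dec P}
    (hσ : σ ∈ t.G) {γ : QQb} (hγ : γ ^ p = 1 + (p : QQb)) (hfix : (σ : GG) γ = γ) :
    eta r σ = 0 := by
  classical
  obtain ⟨φ, hφ⟩ := FlatLocal.exists_frob hP
  let b := Module.finBasis (ZMod p) k
  refine b.forall_coord_eq_zero_iff.1 fun i => ?_
  set l := b.coord i
  have hη : eta r ∈ cornerSub t hP hζ u := ⟨eta_mem hlow hlev hru, hunit⟩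
  have hnd : ¬ p ∣ p - 1 := fun hd => absurd (Nat.le_of_dvd (by omega) hd) (by omega)
  have hmT := pred_lt' t hP hζ hu hp3 he
  have hL : t.Lev ζ (fun σ => l (eta r σ)) (p - 1) :=
    lev_pred_comp t hP hζ hu hp3 he hη (by omega) le_rfl l
  set z := t.lead ζ (fun σ => l (eta r σ)) (p - 1) with hz
  have hzp : z ^ p = z := by
    have h1 := t.lead_congr hP hζ hnd hmT (hL.conj t hP hζ φ)
      (ν' := fun σ => l (eta r σ)) fun σ hσ => by
        show Mazur.expChar p ζ _ * l (eta r (φ⁻¹ * σ * φ)) = _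
        rw [conj_comp t hP hζ hu hη.1 l φ hσ, ← huω φ, div_self (hu.ne_zero φ), one_mul]
    rw [t.lead_conj hP hζ hnd hmT hL φ, hφ] at h1
    have h2 : t.th φ ^ (p - 1) = 1 := by rw [← he]; exact t.th_pow φ
    rwa [h2, mul_one, ← hz] at h1
  obtain ⟨a, ha⟩ := exists_kp_eq hP hzp
  set κ : Dec P → ZMod p := fun g => Mazur.kum p ζ γ (g : GG) with hκ
  have hγ0 : γ ≠ 0 := fun e => by
    rw [e, zero_pow (Fact.out : p.Prime).ne_zero] at hγ
    exact Nat.cast_add_one_ne_zero p (by linear_combination -hγ)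
  have hκgen : ∀ g : Dec P, (g : GG) γ = ζ ^ (κ g).val * γ := fun g =>
    Mazur.kum_spec hζ hγ0 (by rw [hγ, map_add, map_one, map_natCast])
  have hγv : P.valuation (γ ^ p - 1) ≤ t.vπ ^ (p - 1) := by
    rw [hγ, add_sub_cancel_left, ← he, t.vπ_pow]
  have hκL : t.Lev ζ κ (p - 1) := ⟨γ, ⟨hγ0, fun g _ => hκgen g⟩, hγv⟩
  have hκlead : t.lead ζ κ (p - 1) = -1 := by
    rw [t.lead_eq hP hζ hnd hmT ⟨hγ0, fun g _ => hκgen g⟩ hγv, TameData.leadOf, hγ,
      add_sub_cancel_left, ← he, t.π_pow, div_neg,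
      div_self (Nat.cast_ne_zero.2 (Fact.out : p.Prime).ne_zero)]
    rw [show (-1 : QQb) = 0 - 1 by ring, FlatLocal.res_sub P.zero_mem P.one_mem, FlatLocal.res_zero,
      FlatLocal.res_one, zero_sub]
  have hsum := (t.lev_succ_of_lead hP hζ hnd hmT
    ((hL.add t hP hζ (by omega) (hκL.smul t hP hζ (by omega) a))) (by
      rw [t.lead_add hP hζ hnd hmT hL (hκL.smul t hP hζ (by omega) a),
        t.lead_smul hP hζ hnd hmT hκL a, hκlead, ← hz, ← ha]
      ring)).anti t hP hζ (m := p * t.e1) (by rw [t.e1_eq_one he]; omega)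
  have h0 := t.eq_zero_of_lev_top hP hζ hsum hσ
  have hκσ : κ σ = 0 := by
    refine Mazur.zpowZMod_injective hζ ?_
    have h := hκgen σ
    rw [hfix] at h
    rw [ZMod.val_zero, pow_zero]
    exact mul_right_cancel₀ hγ0 (h.symm.trans (one_mul γ).symm)
  simpa [hκσ] using h0

end Unit

/-- The corner of a flat lift with stable line is a unit class. -/
theorem lev_corner [Finite k] {r : Dec P →* M2 k} (t : TameData P p) {ζ : QQb} (hP : P.LiesOverPrime p)
    (hζ : IsPrimitiveRoot ζ p) (he : t.e = p - 1) (hlow : ∀ σ, r σ 1 0 = 0) {f₀ f₁ : Dec P → ZMod p}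
    (h0 : ∀ σ, r σ 0 0 = algebraMap (ZMod p) k (f₀ σ))
    (h1 : ∀ σ, r σ 1 1 = algebraMap (ZMod p) k (f₁ σ))
    (hG : ∀ g ∈ t.G, f₀ g = 1 ∧ f₁ g = 1) {c : Dec P → M2 k} (hc : c ∈ cocM r p)
    (hl : ∀ σ, c σ 1 0 = 0) (hd : ∀ σ, IsIne P σ → c σ 0 0 = 0) (hflat : FlatI P (actM r c))
    (l : k →ₗ[ZMod p] ZMod p) : t.Lev ζ (fun σ => l (c σ 0 1)) 1 := by
  classical
  have hinj := (algebraMap (ZMod p) k).injective
  set ν : Dec P → ZMod p := fun σ => l (c σ 0 1) with hν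
  by_cases htriv : ∀ σ ∈ t.G, ν σ = 0
  · exact t.lev_zero_fun _ htriv
  push Not at htriv
  obtain ⟨σ₀, hσ₀, hne⟩ := htriv
  have hl0 : Function.Surjective l := LinearMap.surjective_iff_ne_zero.2 fun e =>
    hne (by simp [hν, e])
  let act1 : Dec P → Module.End (ZMod p) (k × ZMod p × k) := fun σ =>
    (f₀ σ • LinearMap.fst _ _ _ + LinearMap.toSpanSingleton (ZMod p) k (r σ 0 1) ∘ₗ
      LinearMap.fst _ _ _ ∘ₗ LinearMap.snd _ _ _).prod
      ((f₁ σ • (LinearMap.fst _ _ _ ∘ₗ LinearMap.snd _ _ _)).prod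
        (f₀ σ • (LinearMap.snd _ _ _ ∘ₗ LinearMap.snd _ _ _) + f₁ σ •
          (LinearMap.toSpanSingleton (ZMod p) k (c σ 0 1) ∘ₗ
            LinearMap.fst _ _ _ ∘ₗ LinearMap.snd _ _ _)))
  have hf1 : FlatI P act1 :=
    hflat.restrict ((LinearMap.pi ![LinearMap.fst _ _ _,
        Algebra.linearMap (ZMod p) k ∘ₗ LinearMap.fst _ _ _ ∘ₗ LinearMap.snd _ _ _]).prod
        (LinearMap.pi ![LinearMap.snd _ _ _ ∘ₗ LinearMap.snd _ _ _, 0]) :
          k × ZMod p × k →ₗ[ZMod p] (Fin 2 → k) × (Fin 2 → k))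
      (fun x y e => Prod.ext (by simpa using congrFun (congrArg Prod.fst e) 0)
        (Prod.ext (hinj (by simpa using congrFun (congrArg Prod.fst e) 1))
          (by simpa using congrFun (congrArg Prod.snd e) 0)))
      fun σ hσ x => by
        have h11 : c σ 1 1 = 0 := by
          have e := hc.2.1 σ
          rwa [Matrix.trace_fin_two, hd σ hσ, zero_add] at e
        refine Prod.ext ?_ ?_ <;> funext j <;> fin_cases j <;>
          simp [act1, actM, Matrix.mulVec, dotProduct, Matrix.mul_apply, Fin.sum_univ_two, hlow σ,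
            hl σ, hd σ hσ, h11, h0 σ, h1 σ, Algebra.smul_def] <;> ring
  let act2 : Dec P → Module.End (ZMod p) (ZMod p × ZMod p) := fun σ =>
    (f₁ σ • LinearMap.fst _ _ _).prod
      (f₀ σ • LinearMap.snd _ _ _ + (f₁ σ * ν σ) • LinearMap.fst _ _ _)
  obtain ⟨S, hS⟩ : FlatI P act2 :=
    hf1.quotient hP ((LinearMap.fst _ _ _ ∘ₗ LinearMap.snd _ _ _).prod
        (l ∘ₗ LinearMap.snd _ _ _ ∘ₗ LinearMap.snd _ _ _) :
          k × ZMod p × k →ₗ[ZMod p] ZMod p × ZMod p)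
      (fun q => ⟨(0, q.1, (hl0 q.2).choose), Prod.ext rfl (hl0 q.2).choose_spec⟩)
      fun σ hσ x => by
        refine Prod.ext ?_ ?_ <;> simp [act1, act2, hν]
        ring
  have hGact : ∀ g ∈ t.G, ∀ a b, act2 g (a, b) = (a, b + ν g * a) := fun g hg a b => by
    simp [act2, (hG g hg).1, (hG g hg).2]
  have hhom : t.IsHomG ν :=
    ⟨hc.1.comp fun A : M2 k => l (A 0 1), fun σ hσ σ' hσ' => by
      have e0 : r σ 0 0 = 1 := by rw [h0, (hG σ hσ).1, map_one]
      have e1 : r σ⁻¹ 1 1 = 1 := by rw [h1, (hG σ⁻¹ (inv_mem hσ)).2, map_one]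
      simp only [hν]
      rw [corner_mul hlow hc hl σ (hd σ' hσ'.1), e0, e1, one_mul, one_mul, map_add]⟩
  have hfix : ∀ g ∈ t.G, act2 g (0, ν σ₀) = (0, ν σ₀) := fun g hg => by
    rw [hGact g hg, mul_zero, add_zero]
  have hz : ((0, ν σ₀) : ZMod p × ZMod p) ≠ 0 := fun e => hne (congrArg Prod.snd e)
  obtain ⟨n, hn, hdist⟩ := t.exists_dist_pow hP hS hz hfix
  have hlev' := t.lev_of_translates hP hζ hS hhom (1, 0) {0} (Finset.mem_singleton_self 0)
    (fun σ hσ h0 w hw => ⟨0, Finset.mem_singleton_self _, by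
      rw [Finset.mem_singleton.1 hw, add_zero, hGact σ hσ, h0, zero_mul, add_zero]⟩)
    hσ₀ (n := n) (fun w hw => by
      rw [Finset.mem_singleton.1 hw, add_zero, hGact σ₀ hσ₀]
      simpa using hdist)
    (by rw [Finset.card_singleton, one_mul]; exact hn)
  exact hlev'.anti t hP hζ (Nat.le_add_right 1 _)

end FLTAgent.ModLift.Corner
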