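import Fermat.Agent.ModLift.Tangent.Interface
import Fermat.Agent.ModLift.Tangent.Corner

/-!
# The local spaces at `p` for ordinary lifts

In a basis starting with the line the cocycles are upper triangular up to a coboundary; when the
extension is not given by a unit the diagonal is trivial, and for flat lifts the corner is a unit
class.
-/

set_option autoImplicit false
set_option linter.style.haveILetI false
set_option linter.unusedSectionVars false

noncomputable section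

open scoped Pointwise Matrix

namespace FLTAgent.ModLift.LocalAtP

open FLTAgent.PoitouTate FLTAgent.TWPrimes FLTAgent.TWPrimes.Local FLTAgent.ModLift.Corner
open FLTAgent.FlatLocal (Dec LevC IsIne FlatI omega TameData)

local notation "GG" => (AlgebraicClosure ℚ ≃ₐ[ℚ] AlgebraicClosure ℚ)
local notation "M2" => Matrix (Fin 2) (Fin 2)

variable {P : ValuationSubring (AlgebraicClosure ℚ)} {p : ℕ} [Fact p.Prime] {k : Type} [Field k]
  [Algebra (ZMod p) k]

/-- The line cocycles with a unit class in the corner. -/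
def lineUnit (t : TameData P p) {ζ : AlgebraicClosure ℚ} (hP : P.LiesOverPrime p)
    (hζ : IsPrimitiveRoot ζ p) (r : Dec P →* M2 k) (u : Dec P → k) :
    Submodule (ZMod p) (Dec P → M2 k) :=
  lineCoc p r ⊓ (cornerSub t hP hζ u).comap (LinearMap.pi fun σ => entry p σ 0 1)

theorem lineUnit_bound [Finite k] (t : TameData P p) {ζ : AlgebraicClosure ℚ}
    (hP : P.LiesOverPrime p) (hζ : IsPrimitiveRoot ζ p) (r : Dec P →* M2 k) {u : Dec P → k}
    (hu : IsTwist p ζ u) (hp3 : 3 ≤ p) (he : t.e = p - 1) :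
    FiniteDimensional (ZMod p) ↥(lineUnit t hP hζ r u) ∧
      Module.finrank (ZMod p) ↥(lineUnit t hP hζ r u) ≤ 2 * deg (p := p) k := by
  obtain ⟨hfin, hbound⟩ := cornerSub_bound t hP hζ hu hp3 he
  let E : ↥(lineUnit t hP hζ r u) →ₗ[ZMod p] ↥(cornerSub t hP hζ u) :=
    ((LinearMap.pi fun σ => entry p σ 0 1) ∘ₗ (lineUnit t hP hζ r u).subtype).codRestrict _
      fun c => c.2.2
  have hE : Function.Injective E := by
    intro a b e
    obtain ⟨ha, ha0⟩ := mem_lineCoc.1 a.2.1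
    obtain ⟨hb, hb0⟩ := mem_lineCoc.1 b.2.1
    refine Subtype.ext (funext fun σ => ?_)
    have h1 : a.1 σ 0 1 = b.1 σ 0 1 := congrFun (congrArg Subtype.val e) σ
    have h2 := ha.2.1 σ
    have h3 := hb.2.1 σ
    rw [Matrix.trace_fin_two, ha0, zero_add] at h2
    rw [Matrix.trace_fin_two, hb0, zero_add] at h3
    ext i j
    fin_cases i <;> fin_cases j <;> simp [h1, h2, h3, ha0, hb0]
  haveI := hfin
  exact ⟨Module.Finite.of_injective E hE,
    (LinearMap.finrank_le_finrank_of_injective hE).trans hbound⟩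

variable (D : Datum p k) {V : ValuationSubring (AlgebraicClosure ℚ)}

/-- A flat lift has a flat reduction. -/
theorem flat_residual {c : Dec V → W k} (h : FlatI V (actC D V c)) : FlatI V (actR D V) := by
  refine h.restrict (LinearMap.inr k (Fin 2 → k) (Fin 2 → k)) LinearMap.inr_injective
    fun σ _ v => ?_
  simp [actC, actR]

/-- After a coboundary the first column is the change of the character. -/
theorem col_key {M N : M2 k} (hNM : N * M = 1) {v₀ : Fin 2 → k} (hMv : M *ᵥ ![1, 0] = v₀)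
    {x y : Dec V → k} (hx : ∀ σ : Dec V, rd D σ *ᵥ v₀ = x σ • v₀) (hx0 : ∀ σ, x σ ≠ 0)
    {c : Dec V → W k} {v₁ : Fin 2 → k}
    (hv : ∀ σ : Dec V, (c σ).1 *ᵥ (rd D σ *ᵥ v₀) + rd D σ *ᵥ v₁ = x σ • v₁ + y σ • v₀) :
    ∃ A : M2 k, A.trace = 0 ∧ ∀ σ,
      (chg (p := p) V M N c - cobM (matRep D V M N hNM) A) σ 0 0 = (x σ)⁻¹ * y σ ∧
      (chg (p := p) V M N c - cobM (matRep D V M N hNM) A) σ 1 0 = 0 := by
  have hMN : M * N = 1 := mul_eq_one_comm.1 hNM
  have hNv : N *ᵥ v₀ = ![1, 0] := by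
    rw [← hMv, Matrix.mulVec_mulVec, hNM, Matrix.one_mulVec]
  set r := matRep D V M N hNM with hr
  set w := N *ᵥ v₁ with hw
  set A : M2 k := !![-w 0, 0; -w 1, w 0] with hA
  refine ⟨A, by simp [hA, Matrix.trace_fin_two], fun σ => ?_⟩
  have hcol : r σ *ᵥ ![1, 0] = x σ • ![1, 0] := by
    rw [hr, matRep_apply, ← Matrix.mulVec_mulVec, hMv, ← Matrix.mulVec_mulVec, hx σ,
      Matrix.mulVec_smul, hNv]
  set c' := chg (p := p) V M N c with hc'def
  have hAe : A *ᵥ ![1, 0] = -w := by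
    funext j
    fin_cases j <;> simp [hA, Matrix.mulVec, dotProduct, Fin.sum_univ_two]
  have hwrel : c' σ *ᵥ (x σ • ![1, 0]) + r σ *ᵥ w = x σ • w + y σ • ![1, 0] := by
    have h1 := congrArg (N *ᵥ ·) (hv σ)
    simp only [Matrix.mulVec_add, Matrix.mulVec_smul, hNv] at h1
    rw [hw, hc'def, chg_apply, hr, matRep_apply, Matrix.mulVec_smul, ← Matrix.mulVec_mulVec,
      hMv, ← Matrix.mulVec_mulVec _ N (c σ).1, Matrix.mulVec_mulVec _ (N * rd D σ * M) N,
      mul_assoc (N * rd D σ), hMN, mul_one, ← Matrix.mulVec_mulVec _ N (rd D σ)]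
    rw [show Matrix.mulVec (c σ).1 (rd D σ *ᵥ v₀) = x σ • ((c σ).1 *ᵥ v₀) by
      rw [hx σ, Matrix.mulVec_smul], Matrix.mulVec_smul] at h1
    exact h1
  have hy : (c' - cobM r A) σ *ᵥ (x σ • ![1, 0]) = y σ • ![1, 0] := by
    have h2 : r σ⁻¹ *ᵥ (x σ • ![1, 0]) = ![1, 0] := by
      rw [← hcol, Matrix.mulVec_mulVec, Local.r_inv_mul, Matrix.one_mulVec]
    rw [Pi.sub_apply, cobM_apply, Matrix.sub_mulVec, Matrix.sub_mulVec,
      ← Matrix.mulVec_mulVec, ← Matrix.mulVec_mulVec, h2, hAe, Matrix.mulVec_neg,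
      Matrix.mulVec_smul A, hAe, eq_sub_of_add_eq hwrel, smul_neg]
    abel
  have e0 := congrFun hy 0
  have e1 := congrFun hy 1
  simp [Matrix.mulVec, dotProduct, Fin.sum_univ_two, -Pi.sub_apply, -Matrix.sub_apply] at e0 e1
  refine ⟨?_, e1.resolve_right (hx0 σ)⟩
  field_simp [hx0 σ]
  linear_combination e0

end FLTAgent.ModLift.LocalAtP

namespace FLTAgent.ModLift

open FLTAgent.PoitouTate FLTAgent.TWPrimes FLTAgent.TWPrimes.Local FLTAgent.ModLift.Corner
  FLTAgent.ModLift.LocalAtP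
open FLTAgent.FlatLocal (Dec LevC IsIne FlatI omega TameData)

local notation "GG" => (AlgebraicClosure ℚ ≃ₐ[ℚ] AlgebraicClosure ℚ)
local notation "M2" => Matrix (Fin 2) (Fin 2)

/-- The bounds at `p`. -/
theorem targetLocalAtP : TargetLocalAtP := by
  classical
  intro p _ k _ _ _ D V hP v₀ x hv₀ hx
  have hp3 : 3 ≤ p := by
    have := (Fact.out : p.Prime).two_le
    have := D.ne_two
    omega
  have h2 : (2 : k) ≠ 0 := two_ne_zero_coeff D.ne_two k
  have hinj := (algebraMap (ZMod p) k).injective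
  have hζ := zeta_spec p
  obtain ⟨t, ht⟩ := TameData.exists_data V (p := p) (p - 1) (by omega) dvd_rfl
    (fun h => absurd (Nat.le_of_dvd (by omega) h) (by omega))
  obtain ⟨M, N, hNM, hMv⟩ := exists_basis_change hv₀
  set r := matRep D V M N hNM with hr
  have hlev : LevC V r := matRep_lev D V M N hNM
  have hcol : ∀ σ, r σ *ᵥ ![1, 0] = x σ • ![1, 0] := fun σ => by
    rw [hr, matRep_apply, ← Matrix.mulVec_mulVec, hMv, ← Matrix.mulVec_mulVec, (hx σ).1,
      Matrix.mulVec_smul, ← hMv, Matrix.mulVec_mulVec, hNM, Matrix.one_mulVec]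
  have h00 : ∀ σ, r σ 0 0 = x σ := fun σ => by
    simpa [Matrix.mulVec, dotProduct, Fin.sum_univ_two] using congrFun (hcol σ) 0
  have hlow : ∀ σ, r σ 1 0 = 0 := fun σ => by
    simpa [Matrix.mulVec, dotProduct, Fin.sum_univ_two] using congrFun (hcol σ) 1
  have hom : ∀ σ : Dec V, algebraMap (ZMod p) k (omega (zeta p) σ) ≠ 0 := fun σ e =>
    FlatLocal.omega_ne_zero hζ σ ((map_eq_zero_iff _ hinj).1 e)
  have hx2 : ∀ σ, x σ ^ 2 = algebraMap (ZMod p) k (omega (zeta p) σ) ^ 2 := fun σ => by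
    rw [(hx σ).2, FlatLocal.omega_eq_natCast hζ σ (apply_zeta _), ZMod.natCast_zmod_val]
  have hx0 : ∀ σ, x σ ≠ 0 := fun σ e => by
    have h3 := hx2 σ
    rw [e, zero_pow (by norm_num : 2 ≠ 0)] at h3
    exact hom σ ((pow_eq_zero_iff (by norm_num : 2 ≠ 0)).1 h3.symm)
  set u : Dec V → k := fun σ => algebraMap (ZMod p) k (omega (zeta p) σ) with hudef
  have hdet : ∀ σ, x σ * r σ 1 1 = u σ := fun σ => by
    have h1 := matRep_det D V M N hNM σ
    rwa [← hr, Matrix.det_fin_two, hlow, mul_zero, sub_zero, h00] at h1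
  have hru : ∀ σ, r σ 0 0 * r σ⁻¹ 1 1 = u σ := by
    intro σ
    have h2' := r11_inv hlow σ
    rw [h00]
    refine mul_left_cancel₀ (hom σ) ?_
    show u σ * _ = u σ * u σ
    linear_combination -(x σ * r σ⁻¹ 1 1) * hdet σ + x σ ^ 2 * h2' + hx2 σ
  have hu : IsTwist p (zeta p) u :=
    { lev := by
        obtain ⟨F, hF, hl⟩ := hlev
        refine ⟨F, hF, fun g s hs => ?_⟩
        show algebraMap (ZMod p) k _ = algebraMap (ZMod p) k _
        rw [← matRep_det D V M N hNM, ← matRep_det D V M N hNM, ← hr, hl g s hs]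
      one := by simp [hudef, FlatLocal.omega_one hζ]
      mul := fun σ τ => by simp [hudef, FlatLocal.omega_mul hζ]
      ine := fun σ _ => rfl }
  -- the diagonal lies in the prime field and is trivial on `G`
  set f₀ : Dec V → ZMod p := fun σ => Function.invFun (algebraMap (ZMod p) k) (r σ 0 0) with hf₀
  have hf : ∀ σ, r σ 0 0 = algebraMap (ZMod p) k (f₀ σ) := fun σ => by
    refine (Function.invFun_eq ?_).symm
    rcases eq_or_eq_neg_of_sq_eq_sq (x σ) (u σ) (hx2 σ) with h | h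
    · exact ⟨omega (zeta p) σ, by rw [h00, h]⟩
    · exact ⟨-omega (zeta p) σ, by rw [h00, h, map_neg]⟩
  have hf0G : ∀ g ∈ t.G, f₀ g = 1 := fun g hg => by
    refine t.char_trivial hP (ht ▸ dvd_refl _)
      (hlev.comp fun A : M2 k => Function.invFun (algebraMap (ZMod p) k) (A 0 0))
      (fun σ τ _ _ => hinj ?_) (fun σ _ e => hx0 σ ?_) hg
    · show algebraMap (ZMod p) k (f₀ (σ * τ)) = algebraMap (ZMod p) k (f₀ σ * f₀ τ)
      rw [map_mul, ← hf, ← hf, ← hf, r00_mul hlow]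
    · change f₀ σ = 0 at e
      rw [← h00, hf, e, map_zero]
  set f₁ : Dec V → ZMod p := fun σ => omega (zeta p) σ / f₀ σ with hf₁
  have hf' : ∀ σ, r σ 1 1 = algebraMap (ZMod p) k (f₁ σ) := fun σ => by
    rw [hf₁, map_div₀, ← hf, eq_div_iff (by rw [h00]; exact hx0 σ), h00, mul_comm]
    exact hdet σ
  have hG : ∀ g ∈ t.G, f₀ g = 1 ∧ f₁ g = 1 := fun g hg => ⟨hf0G g hg, by
    rw [hf₁]
    show omega (zeta p) g / f₀ g = 1
    rw [hf0G g hg, FlatLocal.omega_eq_one_of_fix hζ (t.fix_zeta hP hg hζ), div_one]⟩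
  have hline : ∀ a b : k, cobM r !![a, b; 0, -a] ∈ lineCoc p r := by
    intro a b
    refine mem_lineCoc.2 ⟨cobM_mem r hlev (by simp [Matrix.trace_fin_two]), fun σ i => ?_⟩
    rw [cobM_apply, Matrix.sub_apply]
    fin_cases i
    · show (r σ * !![a, b; 0, -a] * r σ⁻¹) 0 0 - _ = 0
      exact sub_eq_zero.2 (tri00 hlow σ (by simp))
    · show (r σ * !![a, b; 0, -a] * r σ⁻¹) 1 0 - _ = 0
      rw [tri10 hlow]
      simp
  refine ⟨fun hne => ?_, ?_⟩
  · -- ordinary classes
    obtain ⟨σ₀, hσ₀, hσ₀fix, hσ₀ne⟩ := hne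
    obtain ⟨γ, hγ⟩ := IsAlgClosed.exists_pow_nat_eq (1 + (p : AlgebraicClosure ℚ))
      (Fact.out : p.Prime).pos
    set σD : Dec V := ⟨σ₀, Places.inertia_le_decomposition V hσ₀⟩
    have hσζ : σ₀ (zeta p) = zeta p := hσ₀fix _ (Or.inl (zeta_spec p).pow_eq_one)
    have hσI : IsIne V σD := hσ₀
    have hσG : σD ∈ t.G := (t.th_eq_one_iff hP hσI).1 (by
      rw [← t.kp_omega hP hζ ht hσI, FlatLocal.omega_eq_one_of_fix hζ hσζ, map_one])
    have hnot : ∀ l₀ : Prop, (∀ l : k →ₗ[ZMod p] ZMod p,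
        t.Lev (zeta p) (fun σ => l (eta r σ)) 1) → l₀ := fun l₀ hunit => by
      exfalso
      refine hσ₀ne (Units.ext ?_)
      have he := eta_eq_zero t hP hζ hlow hlev hu hru (fun σ => rfl) hp3 ht hunit hσG hγ
        (hσ₀fix γ (Or.inr hγ))
      have e00 : r σD 0 0 = 1 := by rw [hf, (hG σD hσG).1, map_one]
      have e11 : r σD 1 1 = 1 := by rw [hf', (hG σD hσG).2, map_one]
      have e11' : r σD⁻¹ 1 1 = 1 := by simpa [e11] using r11_inv hlow σD
      have e01 : r σD 0 1 = 0 := by simpa [eta, e11'] using he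
      have hr1 : r σD = 1 := Matrix.ext fun i j => by
        fin_cases i <;> fin_cases j <;> simp [e00, e11, e01, hlow]
      have hMN : M * N = 1 := mul_eq_one_comm.1 hNM
      have h := congrArg (fun A => M * A * N) hr1
      simp only [hr, matRep_apply, ← mul_assoc, hMN, one_mul, mul_one] at h
      rw [mul_assoc, hMN, mul_one] at h
      rw [Units.val_one]
      exact h
    obtain ⟨hfin, hbound⟩ := finrank_sup_low (r := r)
      (lineCoc_bound hlow hru (twSpace_bound t hP hζ hu hp3 ht))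
    obtain ⟨L, hL, hLn, hmem⟩ := exists_isLoc D V hNM _ hfin (fun A => cobM_mem_sup hline)
      (4 * deg (p := p) k) (hbound.trans
        (show 3 * deg (p := p) k + deg (p := p) k ≤ 4 * deg (p := p) k by omega))
    refine ⟨L, hL, hLn, fun c hc ⟨v₁, y, hy, hv⟩ => hmem c hc ?_⟩
    obtain ⟨A, hA, hcolA⟩ := col_key D hNM hMv (fun σ => (hx σ).1) hx0 hv
    set c' := chg (p := p) V M N c - cobM r A with hc'def
    have hc' : c' ∈ cocM r p := sub_mem (chg_mem D V hNM hc) (cobM_mem r hlev hA)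
    have hl : ∀ σ, c' σ 1 0 = 0 := fun σ => (hcolA σ).2
    have hd : ∀ σ, IsIne V σ → c' σ 0 0 = 0 := fun σ hσ => by
      rw [(hcolA σ).1, hy σ hσ, mul_zero]
    obtain ⟨φ, hφ⟩ := FlatLocal.exists_frob hP
    have hdiag : ∀ σ, c' σ 0 0 = 0 := tw_eq_zero hP hφ (u := fun _ => (1 : k))
      (ν := fun σ => c' σ 0 0)
      ⟨hc'.1.comp fun A : M2 k => A 0 0, fun a b => by rw [one_mul]; exact diag_mul hlow hc' hl a b⟩
      hd (by_contra fun h => hnot False
        (eta_lev t hP hζ hlow hlev hu hru (fun σ => rfl) h2 hc' hl hd h))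
    have hkey : c' ∈ lineCoc p r := mem_lineCoc.2 ⟨hc', fun σ i => by
      fin_cases i
      · exact hdiag σ
      · exact hl σ⟩
    rw [← sub_add_cancel (chg (p := p) V M N c) (cobM r A), ← hc'def]
    exact add_mem (Submodule.mem_sup_left hkey) (cobM_mem_sup hline hA)
  · -- flat classes with a line
    by_cases hex : ∃ c ∈ Z1 (ad D 0) (Dec V).subtype, FlatI V (actC D V c)
    swap
    · refine ⟨B1 (ad D 0) (Dec V).subtype, ⟨B1_le_Z1 D, le_rfl, Module.Finite.range _⟩,
        (LinearMap.finrank_range_le _).trans ?_, fun c hc _ hfl => absurd ⟨c, hc, hfl⟩ hex⟩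
      rw [finrank_scalars (k := k), finrank_W, mul_comm]
    obtain ⟨c₀, hc₀, hfl₀⟩ := hex
    have hflat : FlatI V fun σ => (r σ).mulVecLin := flat_matRep D V hNM (flat_residual D hfl₀)
    have hmemU : ∀ c ∈ lineCoc p r, FlatI V (actM r c) →
        c ∈ lineUnit t hP hζ r u := fun c hc hfl => by
      obtain ⟨hc1, hc2⟩ := mem_lineCoc.1 hc
      refine ⟨hc, ⟨hc1.1.comp fun A : M2 k => A 0 1, fun σ τ => ?_⟩, fun l => ?_⟩
      · show c (σ * τ) 0 1 = c σ 0 1 + u σ * c τ 0 1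
        rw [corner_mul hlow hc1 (fun σ => hc2 σ 1) σ (hc2 τ 0), hru]
      · exact lev_corner t hP hζ ht hlow hf hf' hG hc1 (fun σ => hc2 σ 1) (fun σ _ => hc2 σ 0)
          hfl l
    have hupper : ∀ a b : k, cobM r !![a, b; 0, -a] ∈ lineUnit t hP hζ r u := fun a b =>
      hmemU _ (hline a b) (flat_cobM r hflat _)
    obtain ⟨hfin, hbound⟩ := finrank_sup_low (r := r) (lineUnit_bound t hP hζ r hu hp3 ht)
    obtain ⟨L, hL, hLn, hmem⟩ := exists_isLoc D V hNM _ hfin (fun A => cobM_mem_sup hupper)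
      (3 * deg (p := p) k) (hbound.trans
        (show 2 * deg (p := p) k + deg (p := p) k ≤ 3 * deg (p := p) k by omega))
    refine ⟨L, hL, hLn, fun c hc ⟨v₁, hv⟩ hfl => hmem c hc ?_⟩
    obtain ⟨A, hA, hcolA⟩ := col_key D hNM hMv (fun σ => (hx σ).1) hx0 (y := 0)
      (c := c) (v₁ := v₁) (fun σ => by rw [Pi.zero_apply, zero_smul, add_zero]; exact hv σ)
    set c' := chg (p := p) V M N c - cobM r A with hc'def
    have hc' : c' ∈ cocM r p := sub_mem (chg_mem D V hNM hc) (cobM_mem r hlev hA)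
    have hkey : c' ∈ lineCoc p r := mem_lineCoc.2 ⟨hc', fun σ i => by
      fin_cases i
      · simpa using (hcolA σ).1
      · exact (hcolA σ).2⟩
    rw [← sub_add_cancel (chg (p := p) V M N c) (cobM r A), ← hc'def]
    exact add_mem
      (Submodule.mem_sup_left (hmemU c' hkey (flat_sub_cobM r (flat_chg D V hNM hfl) A)))
      (cobM_mem_sup hupper hA)

end FLTAgent.ModLift
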