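import Fermat.Agent.ModLift.Tangent.Interface
import Fermat.Agent.TWPrimes.Count.Local
import Fermat.Agent.TWPrimes.Local.Unip

/-!
# The local spaces away from `p` at a prime where the residual representation is unramified

A cocycle is determined by its values at a Frobenius element and at a tame generator of inertia;
each condition puts these values in spaces of the required dimension.
-/

set_option autoImplicit false
set_option linter.style.haveILetI false
set_option linter.unusedSectionVars false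

noncomputable section

open scoped Pointwise

namespace FLTAgent.ModLift.LocalAway

open FLTAgent.TWPrimes FLTAgent.PoitouTate FLTAgent.Lowering.P1.Brauer
open FLTAgent.Mazur (kum expChar)

local notation "LL" => AlgebraicClosure ℚ
local notation "GG" => (AlgebraicClosure ℚ ≃ₐ[ℚ] AlgebraicClosure ℚ)
local notation "VS" => ValuationSubring (AlgebraicClosure ℚ)
local notation "Dec" => ValuationSubring.decompositionSubgroup ℚ
local notation "M2" => Matrix (Fin 2) (Fin 2)

variable {p : ℕ} [Fact p.Prime] {k : Type} [Field k] [Algebra (ZMod p) k] [Finite k]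
  (D : Datum p k) {q : ℕ} {V : VS}

/-- Where inertia acts trivially a cocycle is, on inertia, a multiple of the tame character. -/
theorem exists_prop (hq : q.Prime) (hqp : q ≠ p) (hV : V.LiesOverPrime q)
    (hI : ∀ σ ∈ V.inertiaSubgroupIn ℚ, D.rb σ = 1) :
    ∃ σD : ↥(Dec V), (σD : GG) ∈ V.inertiaSubgroupIn ℚ ∧
      ∀ c ∈ Z1 (ad D 0) (Dec V).subtype, c σD = 0 →
        ∀ σ : ↥(Dec V), (σ : GG) ∈ V.inertiaSubgroupIn ℚ → c σ = 0 := by
  classical
  have hpr : p.Prime := Fact.out
  have hqm : ¬ q ∣ p := fun h => hqp ((Nat.prime_dvd_prime_iff_eq hq hpr).1 h)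
  obtain ⟨ζ, hζ⟩ := HasEnoughRootsOfUnity.exists_primitiveRoot LL p
  obtain ⟨π, hπ⟩ := IsAlgClosed.exists_pow_nat_eq (q : LL) hpr.pos
  obtain ⟨σ₀, hσ₀, hσ₀ne⟩ := Tame.exists_kum_ne_zero hq hqp hV hζ hπ
  refine ⟨⟨σ₀, Places.inertia_le_decomposition V hσ₀⟩, hσ₀, fun c hc h0 σ hσ => ?_⟩
  set σD : ↥(Dec V) := ⟨σ₀, Places.inertia_le_decomposition V hσ₀⟩
  obtain ⟨F, hF, hlev⟩ := hc.1
  haveI := hF
  obtain ⟨N, hN, hNn, hFN⟩ := exists_normal_le F
  haveI := hN
  haveI := hNn
  let f : ↥(Dec V) →* (N ≃ₐ[ℚ] N) := (AlgEquiv.restrictNormalHom N).comp (Dec V).subtype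
  have hker : ∀ x y : ↥(Dec V), f x = f y → c x = c y := fun x y h => by
    have hm : ((x⁻¹ * y : ↥(Dec V)) : GG) ∈ N.fixingSubgroup := by
      rw [IntermediateField.mem_fixingSubgroup_iff]
      intro z hz
      have h1 : f (x⁻¹ * y) = 1 := by rw [map_mul, map_inv, h, inv_mul_cancel]
      exact (AlgEquiv.restrictNormal_commutes _ N ⟨z, hz⟩).symm.trans
        (congrArg (fun s : N ≃ₐ[ℚ] N => ((s ⟨z, hz⟩ : N) : LL)) h1)
    have h2 := hlev x (x⁻¹ * y) (IntermediateField.fixingSubgroup_antitone hFN hm)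
    rw [mul_inv_cancel_left] at h2
    exact h2.symm
  have hfl : FLTAgent.Lowering.P1.LevC (Dec V).subtype f := ⟨N, hN, fun g s hs => by
    rw [map_mul]
    refine mul_eq_left.2 (AlgEquiv.ext fun z => Subtype.ext ?_)
    exact (AlgEquiv.restrictNormal_commutes (s : GG) N z).trans
      ((IntermediateField.mem_fixingSubgroup_iff N _).1 hs _ z.2)⟩
  refine (Module.evalEquiv (ZMod p) (W k)).injective (LinearMap.ext fun θ => ?_)
  show θ _ = θ 0
  let ψ : (N ≃ₐ[ℚ] N) → ZMod p := fun x =>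
    if h : ∃ τ, f τ = x then θ (c h.choose) else 0
  have hψ : ∀ τ, ψ (f τ) = θ (c τ) := fun τ => by
    have h : ∃ τ', f τ' = f τ := ⟨τ, rfl⟩
    rw [show ψ (f τ) = _ from dif_pos h, hker _ _ h.choose_spec]
  obtain ⟨i, hi⟩ := FLTAgent.Lowering.P6.exists_mul_kum V f hq hV hqm hζ hπ hfl ψ
    fun x y hx _ => by
      rw [hψ, hψ, hψ, hc.2, Subgroup.coe_subtype, Local.ad_of_rb_eq_one D 0 (hI x hx) (pow_zero _),
        map_add]
  have h1 := hi σD hσ₀
  have h2 := hi σ hσ
  rw [hψ] at h1 h2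
  rw [h0, map_zero, eq_comm, show ((σD : ↥(Dec V)) : GG) = σ₀ from rfl, mul_eq_zero] at h1
  rw [h2, map_zero, h1.resolve_right hσ₀ne, zero_mul]

theorem ad_inertia (hI : ∀ σ ∈ V.inertiaSubgroupIn ℚ, D.rb σ = 1) {σ : ↥(Dec V)}
    (hσ : (σ : GG) ∈ V.inertiaSubgroupIn ℚ) (A : W k) : ad D 0 (σ : GG) A = A :=
  Local.ad_zero_of_rb D (hI σ hσ) A

theorem B1_le_unram (hI : ∀ σ ∈ V.inertiaSubgroupIn ℚ, D.rb σ = 1) :
    B1 (ad D 0) (Dec V).subtype ≤ unramZ D V := fun c hc =>
  (mem_unramZ D).2 ⟨Local.B1_le_Z1 D hc, fun σ hσ => by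
    obtain ⟨a, rfl⟩ := hc
    rw [d0_apply, Subgroup.coe_subtype, ad_inertia D hI hσ, sub_self]⟩

/-- Evaluation at a Frobenius element. -/
def evF (φ : ↥(Dec V)) : (↥(Dec V) → W k) →ₗ[ZMod p] W k := LinearMap.proj φ

theorem trMul_ne_zero {R : M2 k} (h2 : (2 : k) ≠ 0) (hR : ∀ a : k, R ≠ a • 1) :
    Local.trMul R ≠ 0 := by
  intro h
  refine hR ((R 0 0 + R 1 1) / 2) ?_
  have h1 : R - ((R 0 0 + R 1 1) / 2) • (1 : M2 k) = 0 :=
    Local.eq_zero_of_trace_mul h2 (by
      rw [Matrix.trace_sub, Matrix.trace_smul, Matrix.trace_one, Fintype.card_fin,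
        Matrix.trace_fin_two, smul_eq_mul]
      push_cast
      field_simp
      ring) fun a => by
      rw [sub_mul, Matrix.trace_sub, smul_mul_assoc, one_mul, Matrix.trace_smul,
        Local.trace_val, smul_zero, sub_zero]
      exact LinearMap.congr_fun h a
  exact sub_eq_zero.1 h1

/-- The classes with a line lifting with the same character. -/
def lineSub (D : Datum p k) (V : VS) (v₀ : Fin 2 → k) (x : ↥(Dec V) → k) :
    Submodule (ZMod p) (↥(Dec V) → W k) where
  carrier := {c | LineClass D V v₀ x c}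
  zero_mem' := ⟨0, fun σ => by simp⟩
  add_mem' := by
    rintro a b ⟨u, hu⟩ ⟨w, hw⟩
    refine ⟨u + w, fun σ => ?_⟩
    rw [Pi.add_apply, Submodule.coe_add, Matrix.add_mulVec, Matrix.mulVec_add, smul_add, ← hu σ,
      ← hw σ]
    abel
  smul_mem' := by
    rintro z a ⟨u, hu⟩
    refine ⟨z • u, fun σ => ?_⟩
    rw [Pi.smul_apply, Submodule.coe_smul_of_tower, Matrix.smul_mulVec, Matrix.mulVec_smul,
      ← smul_add, hu σ, smul_comm]

theorem B1_le_lineSub {v₀ : Fin 2 → k} {x : ↥(Dec V) → k}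
    (hx : ∀ σ : ↥(Dec V), Matrix.mulVec (D.rb (σ : GG) : M2 k) v₀ = x σ • v₀) :
    B1 (ad D 0) (Dec V).subtype ≤ lineSub D V v₀ x := by
  rintro _ ⟨a, rfl⟩
  refine ⟨-(Matrix.mulVec a.1 v₀), fun σ => ?_⟩
  rw [d0_apply, Subgroup.coe_subtype, Submodule.coe_sub, Local.ad_zero_val, Matrix.sub_mulVec,
    Matrix.mulVec_mulVec, mul_assoc, ← Units.val_mul, inv_mul_cancel, Units.val_one, mul_one,
    hx σ, Matrix.mulVec_smul, Matrix.mulVec_neg, Matrix.mulVec_mulVec, smul_neg]
  abel

/-- Evaluation at a vector, on trace zero matrices. -/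
def evV (v : Fin 2 → k) : W k →ₗ[k] (Fin 2 → k) where
  toFun A := Matrix.mulVec A.1 v
  map_add' A B := by rw [Submodule.coe_add, Matrix.add_mulVec]
  map_smul' a A := by rw [Submodule.coe_smul, Matrix.smul_mulVec, RingHom.id_apply]

theorem evV_apply (v : Fin 2 → k) (A : W k) : evV v A = Matrix.mulVec A.1 v := rfl

theorem finrank_evV_ker {v : Fin 2 → k} (hv : v ≠ 0) :
    Module.finrank k ↥(LinearMap.ker (evV v)) = 1 := by
  have hs : LinearMap.range (evV v) = ⊤ := by
    rw [LinearMap.range_eq_top]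
    intro w
    by_cases h0 : v 0 = 0
    · have h1 : v 1 ≠ 0 := fun e => hv (funext fun i => by fin_cases i <;> assumption)
      refine ⟨⟨!![-(w 1 / v 1), w 0 / v 1; 0, w 1 / v 1],
        LinearMap.mem_ker.2 (by simp [Matrix.trace_fin_two])⟩, ?_⟩
      funext i
      fin_cases i <;> simp [evV_apply, Matrix.mulVec, dotProduct, Fin.sum_univ_two, h0, h1]
    · refine ⟨⟨!![w 0 / v 0, 0; (w 1 + v 1 * (w 0 / v 0)) / v 0, -(w 0 / v 0)],
        LinearMap.mem_ker.2 (by simp [Matrix.trace_fin_two])⟩, ?_⟩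
      funext i
      fin_cases i <;> simp [evV_apply, Matrix.mulVec, dotProduct, Fin.sum_univ_two] <;> field_simp <;>
        ring
  have h := LinearMap.finrank_range_add_finrank_ker (evV v)
  rw [hs, finrank_top, Module.finrank_fintype_fun_eq_card, Fintype.card_fin, Local.finrank_W] at h
  omega

end FLTAgent.ModLift.LocalAway

namespace FLTAgent.ModLift

open FLTAgent.TWPrimes FLTAgent.PoitouTate FLTAgent.ModLift.LocalAway

local notation "GG" => (AlgebraicClosure ℚ ≃ₐ[ℚ] AlgebraicClosure ℚ)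
local notation "Dec" => ValuationSubring.decompositionSubgroup ℚ
local notation "M2" => Matrix (Fin 2) (Fin 2)

/-- The bounds away from `p`. -/
theorem targetLocalAway : TargetLocalAway := by
  classical
  intro p _ k _ _ _ D q V hqp hV hI φ hφ hns
  have h2 : (2 : k) ≠ 0 := Local.two_ne_zero_coeff D.ne_two k
  haveI := finite_coeff (p := p) (k := k)
  have hinj : ∀ c ∈ unramZ D V, c φ = 0 → c = 0 := fun c hc h0 =>
    eq_zero_of_frob q.2 hV hφ ((mem_unramZ D).1 hc).1 h0 ((mem_unramZ D).1 hc).2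
  refine ⟨⟨unramZ D V, ⟨fun c hc => ((mem_unramZ D).1 hc).1, B1_le_unram D hI,
    (finrank_unramZ D hV).1⟩, (finrank_unramZ D hV).2, fun c hc hu => (mem_unramZ D).2 ⟨hc, hu⟩⟩,
    ?_, ?_⟩
  · -- constant trace
    set L := unramZ D V ⊓ LinearMap.ker (Local.trAt D φ) with hL
    let E : ↥L →ₗ[ZMod p] ↥((LinearMap.ker (Local.trMul (Local.rd D φ))).restrictScalars (ZMod p)) :=
      (evF φ ∘ₗ L.subtype).codRestrict _ fun c => by
        show Local.trMul (Local.rd D φ) (c.1 φ) = 0
        rw [Local.trMul_apply, Matrix.trace_mul_comm]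
        exact c.2.2
    have hE : Function.Injective E := LinearMap.ker_eq_bot.1 <| LinearMap.ker_eq_bot'.2 fun c hc =>
      Subtype.ext (hinj c.1 c.2.1 (congrArg Subtype.val hc))
    haveI : FiniteDimensional (ZMod p) ↥L := Module.Finite.of_injective E hE
    refine ⟨L, ⟨fun c hc => ((mem_unramZ D).1 hc.1).1, ?_, inferInstance⟩, ?_,
      fun c hc hu ht => ⟨(mem_unramZ D).2 ⟨hc, hu⟩, ht⟩⟩
    · refine le_inf (B1_le_unram D hI) ?_
      rintro _ ⟨a, rfl⟩
      rw [LinearMap.mem_ker, Local.trAt_apply, d0_apply, Subgroup.coe_subtype, Submodule.coe_sub,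
        Local.ad_zero_val, sub_mul, mul_assoc, Local.rdi_mul_rd, mul_one, Matrix.trace_sub,
        Matrix.trace_mul_comm, sub_self]
    · refine (LinearMap.finrank_le_finrank_of_injective hE).trans ?_
      show Module.finrank (ZMod p) ↥(LinearMap.ker (Local.trMul (Local.rd D φ))) ≤ _
      rw [Local.finrank_scalars (k := k), mul_comm 2]
      refine Nat.mul_le_mul_left _ ?_
      have h := LinearMap.finrank_range_add_finrank_ker (Local.trMul (Local.rd D φ))
      rw [Local.finrank_W, LinearMap.range_eq_top.2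
        (LinearMap.surjective_iff_ne_zero.2 (trMul_ne_zero h2 hns)), finrank_top,
        Module.finrank_self] at h
      omega
  · -- a line
    intro v₀ ε hv₀ hε hφv x hx
    obtain ⟨σD, hσD, hprop⟩ := exists_prop D q.2 hqp hV hI
    have hxI : ∀ σ : ↥(Dec V), (σ : GG) ∈ V.inertiaSubgroupIn ℚ → x σ = 1 := fun σ hσ => by
      have h := hx σ
      rw [hI σ hσ, Units.val_one, Matrix.one_mulVec] at h
      exact (smul_left_injective k hv₀ (h.symm.trans (one_smul k v₀).symm))
    set R : M2 k := Local.rd D φ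
    have hxφ : x φ ≠ 0 := fun e => hv₀ (by
      have h := congrArg (Matrix.mulVec (Local.rdi D φ)) (hx φ)
      rw [Matrix.mulVec_mulVec, Local.rdi_mul_rd, Matrix.one_mulVec, e, zero_smul,
        Matrix.mulVec_zero] at h
      exact h)
    set T : (Fin 2 → k) →ₗ[k] (Fin 2 → k) := R.mulVecLin - x φ • LinearMap.id with hT
    have hTv : T v₀ = 0 := by
      rw [hT, LinearMap.sub_apply, Matrix.mulVecLin_apply, LinearMap.smul_apply, LinearMap.id_apply,
        sub_eq_zero]
      exact hx φ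
    have hTr : Module.finrank k ↥(LinearMap.range T) ≤ 1 := by
      have h := LinearMap.finrank_range_add_finrank_ker T
      rw [Module.finrank_fintype_fun_eq_card, Fintype.card_fin] at h
      have h1 : 0 < Module.finrank k ↥(LinearMap.ker T) :=
        Module.finrank_pos_iff_exists_ne_zero.2
          ⟨⟨v₀, LinearMap.mem_ker.2 hTv⟩, fun e => hv₀ (congrArg Subtype.val e)⟩
      omega
    set Nφ : Submodule k (W k) := Submodule.comap (evV v₀) (LinearMap.range T) with hNφ
    have hNφ2 : Module.finrank k ↥Nφ ≤ 2 := by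
      let g : ↥Nφ →ₗ[k] (Fin 2 → k) := (evV v₀) ∘ₗ Nφ.subtype
      have h := LinearMap.finrank_range_add_finrank_ker (K := k) (V := ↥Nφ) (V₂ := Fin 2 → k) g
      have h1 : Module.finrank k ↥(LinearMap.ker g) ≤ 1 := by
        rw [← finrank_evV_ker hv₀]
        let i : ↥(LinearMap.ker g) →ₗ[k] ↥(LinearMap.ker (evV v₀)) :=
          (Nφ.subtype ∘ₗ (LinearMap.ker g).subtype).codRestrict _ fun A =>
            A.2
        exact LinearMap.finrank_le_finrank_of_injective (f := i) fun a b e =>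
          Subtype.ext (Subtype.ext (congrArg (fun z : ↥(LinearMap.ker (evV v₀)) => z.1) e))
      have h3 := (Submodule.finrank_mono (show LinearMap.range g ≤ LinearMap.range T by
        rintro _ ⟨A, rfl⟩
        exact A.2)).trans hTr
      omega
    set L := Z1 (ad D 0) (Dec V).subtype ⊓ lineSub D V v₀ x with hL
    have hmem : ∀ c ∈ L, c σD ∈ LinearMap.ker (evV v₀) ∧ c φ ∈ Nφ := by
      rintro c ⟨hc, v₁, hv₁⟩
      constructor
      · have h := hv₁ σD
        rw [hI σD hσD, Units.val_one, Matrix.one_mulVec, Matrix.one_mulVec, hxI σD hσD, one_smul,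
          add_eq_right] at h
        exact h
      · have h := hv₁ φ
        rw [hx φ, Matrix.mulVec_smul, ← eq_sub_iff_add_eq] at h
        refine ⟨(x φ)⁻¹ • (-v₁), ?_⟩
        rw [map_smul, map_neg, evV_apply, hT, LinearMap.sub_apply, Matrix.mulVecLin_apply,
          LinearMap.smul_apply, LinearMap.id_apply, neg_sub, ← h, smul_smul, inv_mul_cancel₀ hxφ,
          one_smul]
    let E : ↥L →ₗ[ZMod p]
        ↥((LinearMap.ker (evV v₀)).restrictScalars (ZMod p)) × ↥(Nφ.restrictScalars (ZMod p)) :=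
      ((evF σD ∘ₗ L.subtype).codRestrict _ fun c => (hmem c.1 c.2).1).prod
        ((evF φ ∘ₗ L.subtype).codRestrict _ fun c => (hmem c.1 c.2).2)
    have hE : Function.Injective E := LinearMap.ker_eq_bot.1 <| LinearMap.ker_eq_bot'.2 fun c hc =>
      Subtype.ext (eq_zero_of_frob q.2 hV hφ c.2.1 (congrArg Subtype.val (congrArg Prod.snd hc))
        (hprop c.1 c.2.1 (congrArg Subtype.val (congrArg Prod.fst hc))))
    haveI : FiniteDimensional (ZMod p) ↥L := Module.Finite.of_injective E hE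
    refine ⟨L, ⟨inf_le_left, le_inf (Local.B1_le_Z1 D) (B1_le_lineSub D hx), inferInstance⟩, ?_,
      fun c hc hl => ⟨hc, hl⟩⟩
    refine (LinearMap.finrank_le_finrank_of_injective hE).trans ?_
    rw [Module.finrank_prod]
    show Module.finrank (ZMod p) ↥(LinearMap.ker (evV v₀)) + Module.finrank (ZMod p) ↥Nφ ≤ _
    rw [Local.finrank_scalars (k := k), Local.finrank_scalars (k := k), finrank_evV_ker hv₀,
      mul_comm 3, ← mul_add]
    exact Nat.mul_le_mul_left _ (by omega)

end FLTAgent.ModLift
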