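import Fermat.Agent.TWPrimes.Interface

/-!
# Local spaces of cocycles for the patterns of modularity lifting: interface

At a prime different from `p` where the residual representation is unramified with non-scalar
Frobenius: the unramified classes, the Steinberg classes of a given sign and their intersection.
At `p`: the ordinary classes, and their intersection with the flat ones. The remaining conditions
are those of the package of auxiliary primes.
-/

set_option autoImplicit false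

noncomputable section

namespace FLTAgent.ModLift

open FLTAgent.TWPrimes FLTAgent.PoitouTate

local notation "GG" => (AlgebraicClosure ℚ ≃ₐ[ℚ] AlgebraicClosure ℚ)
local notation "VS" => ValuationSubring (AlgebraicClosure ℚ)
local notation "Dec" => ValuationSubring.decompositionSubgroup ℚ
local notation "M2" => Matrix (Fin 2) (Fin 2)

variable {p : ℕ} [Fact p.Prime] {k : Type} [Field k] [Algebra (ZMod p) k] (D : Datum p k)
  (V : VS)

/-- The class is trivial on inertia. -/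
def UnrClass (c : ↥(Dec V) → W k) : Prop :=
  ∀ σ : ↥(Dec V), (σ : GG) ∈ V.inertiaSubgroupIn ℚ → c σ = 0

/-- The deformed trace at `φ` is constant. -/
def TraceClass (φ : ↥(Dec V)) (c : ↥(Dec V) → W k) : Prop :=
  Matrix.trace ((c φ).1 * (D.rb (φ : GG) : M2 k)) = 0

/-- The line `v₀` with character `x` lifts to a stable line with the same character. -/
def LineClass (v₀ : Fin 2 → k) (x : ↥(Dec V) → k) (c : ↥(Dec V) → W k) : Prop :=
  ∃ v₁ : Fin 2 → k, ∀ σ : ↥(Dec V),
    Matrix.mulVec (c σ).1 (Matrix.mulVec (D.rb (σ : GG) : M2 k) v₀) +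
      Matrix.mulVec (D.rb (σ : GG) : M2 k) v₁ = x σ • v₁

/-- The line `v₀` with character `x` lifts to a stable line, its character changing by an
unramified one. -/
def OrdClass (v₀ : Fin 2 → k) (x : ↥(Dec V) → k) (c : ↥(Dec V) → W k) : Prop :=
  ∃ (v₁ : Fin 2 → k) (y : ↥(Dec V) → k),
    (∀ σ : ↥(Dec V), (σ : GG) ∈ V.inertiaSubgroupIn ℚ → y σ = 0) ∧
    ∀ σ : ↥(Dec V), Matrix.mulVec (c σ).1 (Matrix.mulVec (D.rb (σ : GG) : M2 k) v₀) +
      Matrix.mulVec (D.rb (σ : GG) : M2 k) v₁ = x σ • v₁ + y σ • v₀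

/-- The extension is not given by a unit: some inertia element fixing the `p`-th roots of unity
and of `1 + p` is not trivial residually. -/
def NotUnitExt : Prop :=
  ∃ σ ∈ V.inertiaSubgroupIn ℚ,
    (∀ θ : AlgebraicClosure ℚ, θ ^ p = 1 ∨ θ ^ p = 1 + (p : AlgebraicClosure ℚ) → (σ : GG) θ = θ) ∧
      D.rb σ ≠ 1

/-- The bounds away from `p`. -/
def TargetLocalAway : Prop :=
  ∀ (p : ℕ) [Fact p.Prime] (k : Type) [Field k] [Finite k] [Algebra (ZMod p) k] (D : Datum p k)
    (q : Nat.Primes) (V : VS), (q : ℕ) ≠ p → V.LiesOverPrime (q : ℕ) →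
    (∀ σ ∈ V.inertiaSubgroupIn ℚ, D.rb σ = 1) →
    ∀ φ : ↥(Dec V), V.IsFrobeniusAt (φ : GG) (q : ℕ) →
      (∀ a : k, (D.rb (φ : GG) : M2 k) ≠ a • 1) →
      (∃ L, IsLoc D V L ∧ Module.finrank (ZMod p) ↥L ≤ 3 * deg (p := p) k ∧
        ∀ c ∈ Z1 (ad D 0) (Dec V).subtype, UnrClass V c → c ∈ L) ∧
      (∃ L, IsLoc D V L ∧ Module.finrank (ZMod p) ↥L ≤ 2 * deg (p := p) k ∧
        ∀ c ∈ Z1 (ad D 0) (Dec V).subtype, UnrClass V c → TraceClass D V φ c → c ∈ L) ∧
      ∀ (v₀ : Fin 2 → k) (ε : k), v₀ ≠ 0 → ε ^ 2 = 1 →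
        Matrix.mulVec (D.rb (φ : GG) : M2 k) v₀ = (ε * (q : ℕ)) • v₀ →
        ∀ x : ↥(Dec V) → k,
          (∀ σ : ↥(Dec V), Matrix.mulVec (D.rb (σ : GG) : M2 k) v₀ = x σ • v₀) →
        ∃ L, IsLoc D V L ∧ Module.finrank (ZMod p) ↥L ≤ 3 * deg (p := p) k ∧
          ∀ c ∈ Z1 (ad D 0) (Dec V).subtype, LineClass D V v₀ x c → c ∈ L

/-- The bounds at `p`: ordinary classes when the residual extension is not given by a unit, and
flat classes which are strictly ordinary. -/
def TargetLocalAtP : Prop :=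
  ∀ (p : ℕ) [Fact p.Prime] (k : Type) [Field k] [Finite k] [Algebra (ZMod p) k] (D : Datum p k)
    (V : VS), V.LiesOverPrime p →
    ∀ (v₀ : Fin 2 → k) (x : ↥(Dec V) → k), v₀ ≠ 0 →
      (∀ σ : ↥(Dec V), Matrix.mulVec (D.rb (σ : GG) : M2 k) v₀ = x σ • v₀ ∧
        x σ ^ 2 = algebraMap (ZMod p) k (om p (σ : GG)) ^ 2) →
      (NotUnitExt D V →
        ∃ L, IsLoc D V L ∧ Module.finrank (ZMod p) ↥L ≤ 4 * deg (p := p) k ∧
          ∀ c ∈ Z1 (ad D 0) (Dec V).subtype, OrdClass D V v₀ x c → c ∈ L) ∧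
      ∃ L, IsLoc D V L ∧ Module.finrank (ZMod p) ↥L ≤ 3 * deg (p := p) k ∧
        ∀ c ∈ Z1 (ad D 0) (Dec V).subtype, LineClass D V v₀ x c →
          FlatLocal.FlatI V (actC D V c) → c ∈ L

end FLTAgent.ModLift
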