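import Fermat.Agent.ModLift.Tangent.Interface
import Fermat.Agent.TWPrimes.Glue.Interface
import Fermat.Agent.DetCyclo.Basic

/-!
# Tangent vectors of the rings of the levels: interface

`LevelRep` is a finite local algebra generated by the traces of a lift of the residual
representation. A tangent vector gives the cochain `dCoch`; the bound counts the tangent vectors
whose cochains lie in prescribed local spaces.
-/

set_option autoImplicit false

noncomputable section

open IsLocalRing

namespace FLTAgent.ModLift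

open FLTAgent.TWPrimes

local notation "LL" => AlgebraicClosure ℚ
local notation "GG" => (AlgebraicClosure ℚ ≃ₐ[ℚ] AlgebraicClosure ℚ)
local notation "VS" => ValuationSubring (AlgebraicClosure ℚ)
local notation "Dec" => ValuationSubring.decompositionSubgroup ℚ
local notation "M2" => Matrix (Fin 2) (Fin 2)

variable {O : Type} [CommRing O] [IsDomain O] [IsDiscreteValuationRing O]
  {p : ℕ} [Fact p.Prime] [Algebra (ZMod p) (ResidueField O)]

/-- A finite local algebra generated by the traces of a lift, unramified outside `S`. -/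
structure LevelRep (D : Datum p (ResidueField O)) (S : Finset Nat.Primes) where
  R : Type
  [commRing : CommRing R]
  [algebra : Algebra O R]
  [isLocalRing : IsLocalRing R]
  finite_R : Module.Finite O R
  red : R →ₐ[O] ResidueField O
  ρ : GG →* GL (Fin 2) R
  red_rho : ∀ σ, (ρ σ : M2 R).map red = (D.rb σ : M2 (ResidueField O))
  generated : Algebra.adjoin O
    (Set.range fun σ => Matrix.trace (ρ σ : M2 R)) = ⊤
  det_cyclotomic : ∀ (n : ℕ) (σ : GG) (c : ℕ), DetCyclo.CycloExponent p n σ c →
    Matrix.det (ρ σ : M2 R) - (c : R) ∈ Ideal.span {(p : R) ^ n}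
  continuous : ∀ n : ℕ, ∃ L : IntermediateField ℚ LL, FiniteDimensional ℚ L ∧
    ∀ σ : GG, (∀ x ∈ L, σ x = x) →
      ∀ i j, (ρ σ : M2 R) i j - (1 : M2 R) i j ∈ Ideal.span {(p : R) ^ n}
  unramified : ∀ q : Nat.Primes, q ∉ S → ∀ V : VS, V.LiesOverPrime (q : ℕ) →
    ∀ σ ∈ V.inertiaSubgroupIn ℚ, ρ σ = 1

attribute [instance] LevelRep.commRing LevelRep.algebra LevelRep.isLocalRing

variable {D : Datum p (ResidueField O)} {S : Finset Nat.Primes} (L : LevelRep D S)

/-- The cochain of a tangent vector. -/
def LevelRep.dCoch (d : L.R → ResidueField O) (σ : GG) : M2 (ResidueField O) :=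
  (L.ρ σ : M2 L.R).map d * ((D.rb σ)⁻¹ : GL (Fin 2) (ResidueField O)).val

/-- The count of tangent vectors with prescribed local behaviour. -/
def TargetLevelTangent : Prop :=
  ∀ (O : Type) [CommRing O] [IsDomain O] [IsDiscreteValuationRing O]
    [Finite (ResidueField O)] (p : ℕ) [Fact p.Prime] [Algebra (ZMod p) (ResidueField O)],
    (p : O) ∈ maximalIdeal O → ∀ (D : Datum p (ResidueField O)) (S : Finset Nat.Primes),
    D.bad ⊆ S →
    ∀ b : ℕ, ∃ r : ℕ, b ≤ r ∧ ∀ (n : ℕ) (avoid : Finset Nat.Primes),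
      ∃ Q : Finset Nat.Primes, Q.card = r ∧
      (∀ q ∈ Q, q ∉ avoid ∧ q ∉ S ∧ IsAux D n q) ∧
      ∀ (L : LevelRep D (S ∪ Q)) (V : Nat.Primes → VS),
        (∀ q : Nat.Primes, (V q).LiesOverPrime (q : ℕ)) →
      ∀ Zloc : ∀ q : Nat.Primes,
          Submodule (ZMod p) (↥(Dec (V q)) → W (ResidueField O)),
        (∀ q ∈ S, IsLoc D (V q) (Zloc q)) →
      ∀ E : Submodule (ResidueField O) (L.R → ResidueField O), E ≤ tanSp L.red →
        (∀ d ∈ E, ∀ q ∈ S, ∃ z ∈ Zloc q, ∀ σ : ↥(Dec (V q)),
          (z σ).1 = L.dCoch d (σ : GG)) →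
        FiniteDimensional (ResidueField O) ↥E ∧
          (deg (p := p) (ResidueField O) : ℤ) * (Module.finrank (ResidueField O) ↥E + 1) ≤
            deg (p := p) (ResidueField O) * r +
              ∑ q ∈ S, ((Module.finrank (ZMod p) ↥(Zloc q) : ℤ) -
                3 * deg (p := p) (ResidueField O))

end FLTAgent.ModLift
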